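import Fermat.Agent.SelbergOmega.OneSided

/-!
# A zero with `re ρ ≥ 1/2`, and real coefficients

In positive degree some zero has `re ρ ≥ 1/2`; with real coefficients `Δ` is real.
-/

set_option autoImplicit false

noncomputable section

open Complex Filter Topology
open FA.DegreeGap (HasFunctionalEquation degree)
open FA.SelbergClass (HasEulerProduct)
open FA.SelbergLandau (lamF)
open FA.SelbergHadamard (xiF isSelfDual_xiF xiF_eq_zero_iff exists_xiF_zero)
open scoped ComplexConjugate

namespace FA.SelbergOmega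

variable {a : ℕ → ℂ} {m : ℕ} {E : ℂ → ℂ} {r : ℕ} {lam : Fin r → ℝ} {mu : Fin r → ℂ} {Q : ℝ}
  {omega : ℂ}

theorem exists_zero_right (h : HasFunctionalEquation a m E lam mu Q omega)
    (he : HasEulerProduct a) (hd : 0 < degree lam) : ∃ ρ : ℂ, E ρ = 0 ∧ 1 / 2 ≤ ρ.re := by
  obtain ⟨ρ, hρ⟩ := exists_xiF_zero h he hd
  rcases le_or_gt (1 / 2) ρ.re with hle | hlt
  · exact ⟨ρ, (xiF_eq_zero_iff h (by linarith)).1 hρ, hle⟩
  · have hre : (1 - conj ρ).re = 1 - ρ.re := by simp
    exact ⟨1 - conj ρ, (xiF_eq_zero_iff h (by linarith)).1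
      (((isSelfDual_xiF h he).eq_zero_mirror_iff ρ).2 hρ), by linarith⟩

theorem order_pos (h : HasFunctionalEquation a m E lam mu Q omega) (he : HasEulerProduct a)
    {ρ : ℂ} (h0 : E ρ = 0) : 0 < analyticOrderNatAt E ρ := by
  refine Nat.pos_of_ne_zero fun hz => ?_
  have := Nat.cast_analyticOrderNatAt (order_E_ne_top h he ρ)
  rw [hz] at this
  exact (analyticOrderAt_ne_zero.2 ⟨analyticOnNhd_univ_iff_differentiable.2 h.differentiable ρ
    trivial, h0⟩) this.symm

/-- Real coefficients give real `Λ_F`. -/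
theorem lamF_im (h1 : a 1 = 1) (hreal : ∀ n, n ≠ 0 → (a n).im = 0) (n : ℕ) :
    (lamF a n).im = 0 := by
  rcases eq_or_ne n 0 with rfl | hn
  · simp
  have hconj : ∀ k, k ≠ 0 → conj (a k) = a k := fun k hk =>
    Complex.conj_eq_iff_im.2 (hreal k hk)
  refine Complex.conj_eq_iff_im.1
    (FA.SelbergLandau.lamF_of_eq h1 (fun d => conj (lamF a d)) (fun k hk => ?_) hn).symm
  calc ∑ d ∈ k.divisors, conj (lamF a d) * a (k / d)
      = conj (∑ d ∈ k.divisors, lamF a d * a (k / d)) := by
        rw [map_sum]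
        refine Finset.sum_congr rfl fun d hd => ?_
        rw [map_mul, hconj (k / d) (Nat.div_pos (Nat.divisor_le hd)
          (Nat.pos_of_mem_divisors hd)).ne']
    _ = _ := by
        rw [FA.SelbergLandau.lamF_sum h1 hk, map_mul, hconj k hk, ← Complex.natCast_log,
          conj_ofReal]

theorem psiErr_im (h1 : a 1 = 1) (hreal : ∀ n, n ≠ 0 → (a n).im = 0) (t : ℝ) :
    (psiErr a m t).im = 0 := by
  simp [psiErr, Complex.im_sum, lamF_im h1 hreal]

end FA.SelbergOmega

end
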