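import Mathlib

/-!
# Landau's theorem for Laplace transforms of positive measures

If the transform `∫ exp (z X)` of a positive measure, `X ≥ 0`, continues analytically to every
real point below `b`, it converges at every real point below `b`.
-/

set_option autoImplicit false

noncomputable section

open MeasureTheory ProbabilityTheory Filter Topology Set
open scoped ENNReal

namespace FA.SelbergOmega

variable {Ω : Type*} {mΩ : MeasurableSpace Ω} {μ : Measure Ω} {X : Ω → ℝ}

theorem integrableExpSet_of_le (hX : Measurable X) (hX0 : ∀ᵐ ω ∂μ, 0 ≤ X ω) {t u : ℝ}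
    (hu : u ∈ integrableExpSet X μ) (htu : t ≤ u) : t ∈ integrableExpSet X μ := by
  refine Integrable.mono' (g := fun ω => Real.exp (u * X ω)) hu
    (by fun_prop : Measurable fun ω => Real.exp (t * X ω)).aestronglyMeasurable ?_
  filter_upwards [hX0] with ω hω
  rw [Real.norm_of_nonneg (Real.exp_pos _).le]
  exact Real.exp_le_exp.2 (mul_le_mul_of_nonneg_right htu hω)

/-- A convergent Taylor series at `c` gives convergence at `c + d`. -/
theorem integrable_of_hasSum (hX : Measurable X) (hX0 : ∀ᵐ ω ∂μ, 0 ≤ X ω) {c d : ℝ}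
    (hd : 0 ≤ d) (hc : c ∈ interior (integrableExpSet X μ))
    (hs : Summable fun n : ℕ => d ^ n / n.factorial * ∫ ω, X ω ^ n * Real.exp (c * X ω) ∂μ) :
    c + d ∈ integrableExpSet X μ := by
  obtain ⟨T, hT⟩ : ∃ T : ℕ → Ω → ℝ,
      T = fun n ω => d ^ n / n.factorial * (X ω ^ n * Real.exp (c * X ω)) := ⟨_, rfl⟩
  have hTi : ∀ n, Integrable (T n) μ := fun n => by
    rw [hT]
    exact (integrable_pow_mul_exp_of_mem_interior_integrableExpSet hc n).const_mul _
  have hT0 : ∀ n, 0 ≤ᵐ[μ] T n := fun n => by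
    filter_upwards [hX0] with ω hω
    rw [hT]
    simp only [Pi.zero_apply]
    positivity
  have hS : Summable fun n => ∫ ω, T n ω ∂μ :=
    hs.congr fun n => by rw [hT, integral_const_mul]
  have hfin : ∫⁻ ω, ∑' n, ENNReal.ofReal (T n ω) ∂μ < ∞ := by
    rw [lintegral_tsum fun n => (hTi n).1.aemeasurable.ennreal_ofReal]
    simp only [← fun n => ofReal_integral_eq_lintegral_ofReal (hTi n) (hT0 n)]
    rw [← ENNReal.ofReal_tsum_of_nonneg (fun n => integral_nonneg_of_ae (hT0 n)) hS]
    exact ENNReal.ofReal_lt_top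
  refine ⟨(by fun_prop : Measurable fun ω => Real.exp ((c + d) * X ω)).aestronglyMeasurable, ?_⟩
  rw [hasFiniteIntegral_iff_norm]
  refine lt_of_le_of_lt (le_of_eq (lintegral_congr_ae ?_)) hfin
  filter_upwards [hX0] with ω hω
  have hsum : HasSum (fun n => T n ω) (Real.exp ((c + d) * X ω)) := by
    rw [show (c + d) * X ω = d * X ω + c * X ω by ring, Real.exp_add]
    have he : HasSum (fun n : ℕ => (d * X ω) ^ n / n.factorial) (Real.exp (d * X ω)) := by
      simpa [Real.exp_eq_exp_ℝ] using NormedSpace.expSeries_div_hasSum_exp (d * X ω)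
    refine (he.mul_right (Real.exp (c * X ω))).congr_fun fun n => ?_
    rw [hT]
    ring
  rw [Real.norm_of_nonneg (Real.exp_pos _).le, ← hsum.tsum_eq,
    ENNReal.ofReal_tsum_of_nonneg (fun n => by rw [hT]; positivity) hsum.summable]

/-- **Landau's theorem.** -/
theorem landau_integrable (hX : Measurable X) (hX0 : ∀ᵐ ω ∂μ, 0 ≤ X ω) {F : ℂ → ℂ} {a b : ℝ}
    (hint : ∀ t < a, t ∈ integrableExpSet X μ) (hF : ∀ t : ℝ, t < b → AnalyticAt ℂ F t)
    (heq : ∀ t : ℝ, t < a → F t = complexMGF X μ t) :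
    ∀ t < b, t ∈ integrableExpSet X μ := by
  intro t₁ ht₁
  by_contra hnot
  have hne : (integrableExpSet X μ).Nonempty := ⟨a - 1, hint _ (by linarith)⟩
  have hub : ∀ t ∈ integrableExpSet X μ, t < t₁ := fun t ht =>
    lt_of_not_ge fun hle => hnot (integrableExpSet_of_le hX hX0 ht hle)
  have hbdd : BddAbove (integrableExpSet X μ) := ⟨t₁, fun t ht => (hub t ht).le⟩
  obtain ⟨v, hv⟩ : ∃ v, v = sSup (integrableExpSet X μ) := ⟨_, rfl⟩
  have hvb : v < b := lt_of_le_of_lt (hv ▸ csSup_le hne fun t ht => (hub t ht).le) ht₁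
  have hsub : Iio v ⊆ interior (integrableExpSet X μ) :=
    interior_maximal (fun t ht => by
      obtain ⟨u, hu, htu⟩ := exists_lt_of_lt_csSup hne (hv ▸ ht)
      exact integrableExpSet_of_le hX hX0 hu htu.le) isOpen_Iio
  have hEq : EqOn F (complexMGF X μ) (Complex.ofReal '' Iio v) := by
    obtain ⟨x₀, hx₀⟩ : ∃ x₀, x₀ = min a v - 1 := ⟨_, rfl⟩
    have hxv : x₀ < v := by rw [hx₀]; linarith [min_le_right a v]
    refine AnalyticOnNhd.eqOn_of_preconnected_of_eventuallyEq (𝕜 := ℂ) (z₀ := (x₀ : ℂ)) ?_ ?_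
      (isPreconnected_Iio.image _ Complex.continuous_ofReal.continuousOn) ⟨x₀, hxv, rfl⟩ ?_
    · rintro _ ⟨t, ht, rfl⟩
      exact hF t (lt_trans ht hvb)
    · rintro _ ⟨t, ht, rfl⟩
      exact analyticAt_complexMGF (hsub (by simpa using ht))
    · have hA : AnalyticAt ℂ F x₀ := hF x₀ (hxv.trans hvb)
      refine (hA.frequently_eq_iff_eventually_eq
        (analyticAt_complexMGF (hsub (by simpa using hxv)))).1 ?_
      have hev : ∀ᶠ t : ℝ in 𝓝[>] x₀, F t = complexMGF X μ t :=
        nhdsWithin_le_nhds ((eventually_lt_nhds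
          (show x₀ < a by rw [hx₀]; linarith [min_le_left a v])).mono heq)
      refine Tendsto.frequently (tendsto_nhdsWithin_iff.2 ⟨?_, ?_⟩) hev.frequently
      · exact (Complex.continuous_ofReal.tendsto x₀).mono_left nhdsWithin_le_nhds
      · filter_upwards [self_mem_nhdsWithin] with t ht
        simpa using ne_of_gt ht
  obtain ⟨r, hr, hball⟩ := Metric.eventually_nhds_iff.1 (hF v hvb).eventually_analyticAt
  obtain ⟨c, hc⟩ : ∃ c, c = v - r / 4 := ⟨_, rfl⟩
  have hcv : c < v := by rw [hc]; linarith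
  have hdiff : DifferentiableOn ℂ F (Metric.ball (c : ℂ) (r / 2)) := fun z hz => by
    refine (hball ?_).differentiableAt.differentiableWithinAt
    refine (dist_triangle z (c : ℂ) (v : ℂ)).trans_lt ?_
    have : dist (c : ℂ) (v : ℂ) = r / 4 := by
      rw [Complex.dist_eq, ← Complex.ofReal_sub, Complex.norm_real, hc, Real.norm_eq_abs]
      rw [show v - r / 4 - v = -(r / 4) by ring, abs_neg, abs_of_pos (by linarith)]
    rw [this]
    linarith [Metric.mem_ball.1 hz]
  have hder : ∀ n, iteratedDeriv n F c =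
      ((∫ ω, X ω ^ n * Real.exp (c * X ω) ∂μ : ℝ) : ℂ) := fun n => by
    have h1 : F =ᶠ[𝓝 (c : ℂ)] complexMGF X μ := by
      refine ((hF c (hcv.trans hvb)).frequently_eq_iff_eventually_eq
        (analyticAt_complexMGF (hsub (by simpa using hcv)))).1 ?_
      have hev : ∀ᶠ t : ℝ in 𝓝[>] c, F t = complexMGF X μ t :=
        nhdsWithin_le_nhds ((eventually_lt_nhds hcv).mono fun t ht => hEq ⟨t, ht, rfl⟩)
      refine Tendsto.frequently (tendsto_nhdsWithin_iff.2 ⟨?_, ?_⟩) hev.frequently
      · exact (Complex.continuous_ofReal.tendsto c).mono_left nhdsWithin_le_nhds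
      · filter_upwards [self_mem_nhdsWithin] with t ht
        simpa using ne_of_gt ht
    rw [h1.iteratedDeriv_eq n, iteratedDeriv_complexMGF (hsub (by simpa using hcv)),
      ← integral_complex_ofReal]
    refine integral_congr_ae (Eventually.of_forall fun ω => ?_)
    push_cast
    ring_nf
  have hT := Complex.hasSum_taylorSeries_on_ball hdiff
    (z := ((c + 3 * r / 8 : ℝ) : ℂ)) (by
      rw [Metric.mem_ball, Complex.dist_eq, ← Complex.ofReal_sub, Complex.norm_real,
        Real.norm_of_nonneg (by linarith)]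
      linarith)
  have hs : Summable fun n : ℕ => (3 * r / 8) ^ n / n.factorial *
      ∫ ω, X ω ^ n * Real.exp (c * X ω) ∂μ := by
    refine (hT.summable.map Complex.reCLM Complex.reCLM.continuous).congr fun n => ?_
    rw [Function.comp_apply, Complex.reCLM_apply, hder n]
    simp only [smul_eq_mul, ← Complex.ofReal_sub, add_sub_cancel_left, ← Complex.ofReal_natCast,
      ← Complex.ofReal_inv, ← Complex.ofReal_pow, ← Complex.ofReal_mul, Complex.ofReal_re]
    ring
  have hmem := integrable_of_hasSum hX hX0 (by linarith) (hsub hcv) hs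
  have := le_csSup hbdd hmem
  rw [← hv] at this
  linarith

end FA.SelbergOmega

end
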