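import Fermat.Agent.SelbergOmega.Transform

/-!
# A bound for `|Δ|` bounds the zeros

`|Δ t| ≤ C t^β` for large `t` forces `k ≤ C |ρ|` at a zero of multiplicity `k` with `re ρ = β`.
-/

set_option autoImplicit false

noncomputable section

open Complex MeasureTheory Filter Topology Set Asymptotics
open FA.DegreeGap (HasFunctionalEquation)
open FA.SelbergClass (HasEulerProduct)

namespace FA.SelbergOmega

variable {a : ℕ → ℂ} {m : ℕ} {E : ℂ → ℂ} {r : ℕ} {lam : Fin r → ℝ} {mu : Fin r → ℂ} {Q : ℝ}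
  {omega : ℂ} {ρ : ℂ}

/-- The residue of `E'/E`. -/
theorem tendsto_mul_logDeriv {f : ℂ → ℂ} (hf : AnalyticAt ℂ f ρ) (ho : analyticOrderAt f ρ ≠ ⊤) :
    Tendsto (fun z => (z - ρ) * (deriv f z / f z)) (𝓝[≠] ρ)
      (𝓝 (analyticOrderNatAt f ρ : ℂ)) := by
  obtain ⟨g, hg, hg0, heq⟩ := hf.analyticOrderAt_ne_top.1 ho
  generalize analyticOrderNatAt f ρ = k at heq
  have hlim : Tendsto (fun z => (k : ℂ) + (z - ρ) * (deriv g z / g z)) (𝓝[≠] ρ) (𝓝 (k : ℂ)) := by
    have hc : ContinuousAt (fun z => (k : ℂ) + (z - ρ) * (deriv g z / g z)) ρ :=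
      continuousAt_const.add ((continuousAt_id.sub continuousAt_const).mul
        (hg.deriv.continuousAt.div hg.continuousAt hg0))
    simpa using hc.tendsto.mono_left (nhdsWithin_le_nhds (s := {ρ}ᶜ))
  refine hlim.congr' ?_
  filter_upwards [nhdsWithin_le_nhds (heq.eventuallyEq_nhds.and
    ((hg.continuousAt.eventually_ne hg0).and hg.eventually_analyticAt)), self_mem_nhdsWithin]
    with z ⟨hz, hgz, hga⟩ hne
  have hzw : z - ρ ≠ 0 := sub_ne_zero.2 hne
  have hd : HasDerivAt (fun y => (y - ρ) ^ k * g y)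
      ((k : ℂ) * (z - ρ) ^ (k - 1) * 1 * g z + (z - ρ) ^ k * deriv g z) z :=
    (((hasDerivAt_id z).sub_const ρ).pow k).mul hga.differentiableAt.hasDerivAt
  have he : f =ᶠ[𝓝 z] fun y => (y - ρ) ^ k * g y := by
    filter_upwards [hz] with y hy using by rw [hy, smul_eq_mul]
  rw [he.deriv_eq, hd.deriv, he.eq_of_nhds]
  rcases k with _ | k
  · simp only [pow_zero, Nat.cast_zero]
    field_simp
    ring
  · simp only [Nat.add_sub_cancel, pow_succ]
    field_simp

theorem tendsto_mul_logDeriv_right (h : HasFunctionalEquation a m E lam mu Q omega)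
    (he : HasEulerProduct a) (ρ : ℂ) :
    Tendsto (fun ε : ℝ => (ε : ℂ) * (deriv E (ρ + ε) / E (ρ + ε) + m)) (𝓝[>] 0)
      (𝓝 (analyticOrderNatAt E ρ : ℂ)) := by
  have hcast : Tendsto (fun ε : ℝ => (ε : ℂ)) (𝓝[>] 0) (𝓝 0) := by
    simpa using (Complex.continuous_ofReal.tendsto 0).mono_left nhdsWithin_le_nhds
  have hmap : Tendsto (fun ε : ℝ => ρ + ε) (𝓝[>] 0) (𝓝[≠] ρ) := by
    refine tendsto_nhdsWithin_iff.2 ⟨by simpa using hcast.const_add ρ, ?_⟩
    filter_upwards [self_mem_nhdsWithin] with ε hε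
    simpa using ne_of_gt hε
  have h1 := (tendsto_mul_logDeriv (analyticOnNhd_univ_iff_differentiable.2 h.differentiable ρ
    trivial) (order_E_ne_top h he ρ)).comp hmap
  have h2 := h1.add (hcast.mul_const (m : ℂ))
  rw [zero_mul, add_zero] at h2
  refine h2.congr' (Eventually.of_forall fun ε => ?_)
  simp only [Function.comp_apply, add_sub_cancel_left]
  ring

theorem isBigO_of_bound {f : ℝ → ℂ} {C β X₀ : ℝ} (hX : ∀ t, X₀ ≤ t → ‖f t‖ ≤ C * t ^ β) :
    f =O[atTop] fun t => t ^ β := by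
  refine IsBigO.of_bound C ?_
  filter_upwards [eventually_ge_atTop X₀, eventually_ge_atTop 0] with t ht h0
  rw [Real.norm_of_nonneg (Real.rpow_nonneg h0 β)]
  exact hX t ht

/-- The integral near the line. -/
theorem exists_norm_errInt_le {C β X₀ : ℝ} (hβ : 0 ≤ β)
    (hX : ∀ t, X₀ ≤ t → ‖psiErr a m t‖ ≤ C * t ^ β) :
    ∃ K : ℝ, ∀ s : ℂ, β < s.re → ‖errInt a m s‖ ≤ K + C / (s.re - β) := by
  obtain ⟨X, hXd⟩ : ∃ X, X = max X₀ 1 := ⟨_, rfl⟩
  have hX1 : 1 ≤ X := hXd ▸ le_max_right _ _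
  have hC : 0 ≤ C := nonneg_of_mul_nonneg_left ((norm_nonneg _).trans
    (hX X (hXd ▸ le_max_left _ _))) (Real.rpow_pos_of_pos (by linarith) β)
  obtain ⟨B, hB, hle⟩ := exists_norm_psiErr_le a m X
  refine ⟨B * (X - 1), fun s hs => ?_⟩
  have hint := integrableOn_errInt (isBigO_of_bound hX) hs
  have hp : IntegrableOn (fun t : ℝ => C * t ^ (β - (s.re + 1))) (Ioi 1) :=
    (integrableOn_Ioi_rpow_of_lt (by linarith) one_pos).const_mul C
  have hc : IntegrableOn ((Ioc 1 X).indicator fun _ : ℝ => B) (Ioi 1) :=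
    ((integrableOn_const measure_Ioc_lt_top.ne).integrable_indicator measurableSet_Ioc).integrableOn
  refine (norm_integral_le_of_norm_le (hc.add hp) ?_).trans (le_of_eq ?_)
  · filter_upwards [ae_restrict_mem measurableSet_Ioi] with t ht
    have ht0 : (0 : ℝ) < t := zero_lt_one.trans ht
    rw [Pi.add_apply, norm_mul, norm_cpow_eq_rpow_re_of_pos ht0,
      show (-(s + 1)).re = -(s.re + 1) by simp]
    rcases le_or_gt t X with htX | htX
    · rw [indicator_of_mem (show t ∈ Ioc 1 X from ⟨ht, htX⟩)]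
      refine le_trans ?_ (le_add_of_nonneg_right (by positivity))
      exact (mul_le_mul_of_nonneg_left
        (Real.rpow_le_one_of_one_le_of_nonpos (le_of_lt ht) (by linarith)) (norm_nonneg _)).trans
          (by rw [mul_one]; exact hle t ht0.le htX)
    · rw [indicator_of_notMem fun h => absurd h.2 (not_le.2 htX), zero_add,
        sub_eq_add_neg β, Real.rpow_add ht0, ← mul_assoc]
      exact mul_le_mul_of_nonneg_right (hX t (le_trans (hXd ▸ le_max_left _ _) htX.le))
        (by positivity)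
  · rw [integral_add' hc hp, integral_const_mul, integral_Ioi_rpow_of_lt (by linarith) one_pos,
      Real.one_rpow, setIntegral_indicator measurableSet_Ioc, inter_eq_self_of_subset_right
        Ioc_subset_Ioi_self, setIntegral_const, Real.volume_real_Ioc_of_le hX1, smul_eq_mul,
      show β - (s.re + 1) + 1 = -(s.re - β) by ring, neg_div_neg_eq]
    ring

/-- **`k ≤ C |ρ|`.** -/
theorem order_le_of_bound (h : HasFunctionalEquation a m E lam mu Q omega) (he : HasEulerProduct a)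
    (hρ : 0 ≤ ρ.re) {C X₀ : ℝ} (hX : ∀ t, X₀ ≤ t → ‖psiErr a m t‖ ≤ C * t ^ ρ.re) :
    (analyticOrderNatAt E ρ : ℝ) ≤ C * ‖ρ‖ := by
  obtain ⟨K, hK⟩ := exists_norm_errInt_le hρ hX
  have hd : DifferentiableOn ℂ (errInt a m) {s | ρ.re < s.re} := fun s hs =>
    (differentiableAt_errInt (isBigO_of_bound hX) hs).differentiableWithinAt
  obtain ⟨σ₀, -, -, -⟩ := exists_errInt_eq h he
  obtain ⟨hid, hne⟩ := ne_zero_of_continuation h he (σ₁ := σ₀) hd fun s _ => rfl
  have h1 := (tendsto_mul_logDeriv_right h he ρ).norm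
  rw [Complex.norm_natCast] at h1
  have h2 : Tendsto (fun ε : ℝ => ‖ρ + ε‖ * (ε * K + C)) (𝓝[>] 0) (𝓝 (C * ‖ρ‖)) := by
    have hc : Continuous fun ε : ℝ => ‖ρ + ε‖ * (ε * K + C) := by fun_prop
    simpa [mul_comm] using (hc.tendsto 0).mono_left nhdsWithin_le_nhds
  refine le_of_tendsto_of_tendsto h1 h2 ?_
  filter_upwards [self_mem_nhdsWithin] with ε hε
  have hε0 : (0 : ℝ) < ε := hε
  have hs : ρ.re < (ρ + (ε : ℂ)).re := by simp [hε0]
  have hE := hne _ hs
  rw [show deriv E (ρ + ε) / E (ρ + ε) + (m : ℂ) = -((ρ + ε) * errInt a m (ρ + ε)) by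
    rw [div_add' _ _ _ hE, hid _ hs, neg_div, mul_div_cancel_right₀ _ hE]]
  rw [norm_mul, norm_neg, norm_mul, Complex.norm_real, Real.norm_of_nonneg hε0.le, mul_left_comm]
  refine mul_le_mul_of_nonneg_left ((mul_le_mul_of_nonneg_left (hK _ hs) hε0.le).trans
    (le_of_eq ?_)) (norm_nonneg _)
  rw [add_re, ofReal_re, add_sub_cancel_left, mul_add, mul_div_cancel₀ _ hε0.ne']

/-- A bound `O (x ^ θ)` leaves no zero to the right of `θ`. -/
theorem ne_zero_of_isBigO (h : HasFunctionalEquation a m E lam mu Q omega) (he : HasEulerProduct a)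
    {θ : ℝ} (hO : psiErr a m =O[atTop] fun t => t ^ θ) {s : ℂ} (hs : θ < s.re) : E s ≠ 0 := by
  obtain ⟨σ₀, -, -, -⟩ := exists_errInt_eq h he
  exact (ne_zero_of_continuation h he (σ₁ := σ₀) (fun z hz =>
    (differentiableAt_errInt hO hz).differentiableWithinAt) fun _ _ => rfl).2 s hs

end FA.SelbergOmega

end
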