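import Fermat.Agent.SelbergOmega.Absolute
import Fermat.Agent.SelbergOmega.Landau

/-!
# One-sided bounds

`e Δ t ≤ C t^α` for large `t` and no real zero to the right of `α`: the transform of
`C t^α - e Δ t ≥ 0` converges for `re s > α`, so there is no zero there.
-/

set_option autoImplicit false

noncomputable section

open Complex MeasureTheory ProbabilityTheory Filter Topology Set Asymptotics
open FA.DegreeGap (HasFunctionalEquation)
open FA.SelbergClass (HasEulerProduct)
open scoped ENNReal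

namespace FA.SelbergOmega

variable {a : ℕ → ℂ} {m : ℕ} {E : ℂ → ℂ} {r : ℕ} {lam : Fin r → ℝ} {mu : Fin r → ℂ} {Q : ℝ}
  {omega : ℂ} {ρ : ℂ} {C B X α e : ℝ}

/-- The nonnegative function of a one-sided bound. -/
def sideFn (a : ℕ → ℂ) (m : ℕ) (C B X α e : ℝ) (t : ℝ) : ℝ :=
  C * t ^ α + (Iic X).indicator (fun _ => B) t - e * (psiErr a m t).re

/-- Its measure on `(1, ∞)`. -/
def sideMeasure (a : ℕ → ℂ) (m : ℕ) (C B X α e : ℝ) : Measure ℝ :=
  (volume.restrict (Ioi (1 : ℝ))).withDensity fun t =>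
    ENNReal.ofReal (sideFn a m C B X α e t * t⁻¹)

/-- Its transform at `s`. -/
def sideInt (a : ℕ → ℂ) (m : ℕ) (C B X α e : ℝ) (s : ℂ) : ℂ :=
  complexMGF Real.log (sideMeasure a m C B X α e) (-s)

theorem measurable_sideFn (a : ℕ → ℂ) (m : ℕ) (C B X α e : ℝ) :
    Measurable (sideFn a m C B X α e) :=
  ((measurable_id.pow_const α).const_mul C |>.add
    (measurable_const.indicator measurableSet_Iic)).sub
      ((Complex.measurable_re.comp (measurable_psiErr a m)).const_mul e)

theorem measurable_density (a : ℕ → ℂ) (m : ℕ) (C B X α e : ℝ) :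
    Measurable fun t => ENNReal.ofReal (sideFn a m C B X α e t * t⁻¹) :=
  ((measurable_sideFn a m C B X α e).mul measurable_inv).ennreal_ofReal

theorem ae_log_nonneg : ∀ᵐ t ∂sideMeasure a m C B X α e, 0 ≤ Real.log t := by
  refine (withDensity_absolutelyContinuous _ _).ae_le ?_
  filter_upwards [ae_restrict_mem measurableSet_Ioi] with t ht
  exact Real.log_nonneg (le_of_lt ht)

/-- The integrand. -/
theorem sideInt_integrand (hg : ∀ t, 1 < t → 0 ≤ sideFn a m C B X α e t) (z : ℂ) {t : ℝ}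
    (ht : t ∈ Ioi (1 : ℝ)) :
    (ENNReal.ofReal (sideFn a m C B X α e t * t⁻¹)).toReal • cexp (z * Real.log t) =
      (sideFn a m C B X α e t : ℂ) * (t : ℂ) ^ (z - 1) := by
  have ht0 : 0 < t := zero_lt_one.trans ht
  rw [ENNReal.toReal_ofReal (mul_nonneg (hg t ht) (inv_nonneg.2 ht0.le)), Complex.real_smul,
    cpow_sub _ _ (ofReal_ne_zero.2 ht0.ne'), cpow_one, cpow_def_of_ne_zero
      (ofReal_ne_zero.2 ht0.ne'), ← ofReal_log ht0.le, mul_comm (z : ℂ)]
  push_cast
  ring

theorem sideInt_eq (hg : ∀ t, 1 < t → 0 ≤ sideFn a m C B X α e t) (s : ℂ) :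
    sideInt a m C B X α e s =
      ∫ t in Ioi (1 : ℝ), (sideFn a m C B X α e t : ℂ) * (t : ℂ) ^ (-(s + 1)) := by
  rw [sideInt, complexMGF, sideMeasure, integral_withDensity_eq_integral_toReal_smul
    (measurable_density a m C B X α e)
    (Eventually.of_forall fun _ => ENNReal.ofReal_lt_top)]
  refine setIntegral_congr_fun measurableSet_Ioi fun t ht => ?_
  rw [sideInt_integrand hg _ ht, neg_add']

/-- Far to the right the transform is known. -/
theorem sideInt_right (hα : 0 ≤ α) (hreal : ∀ t, (psiErr a m t).im = 0) (hX : 1 ≤ X)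
    (hg : ∀ t, 1 < t → 0 ≤ sideFn a m C B X α e t) {b : ℝ}
    (hb : psiErr a m =O[atTop] fun t => t ^ b) {s : ℂ} (hsb : b < s.re) (hsα : α < s.re) :
    (-s.re) ∈ integrableExpSet Real.log (sideMeasure a m C B X α e) ∧
      sideInt a m C B X α e s =
        (C : ℂ) / (s - α) + (B : ℂ) * ((1 - (X : ℂ) ^ (-s)) / s) - (e : ℂ) * errInt a m s := by
  have hs0 : s ≠ 0 := fun h => by rw [h, zero_re] at hsα; linarith
  have h1 : IntegrableOn (fun t : ℝ => (t : ℂ) ^ ((α : ℂ) - (s + 1))) (Ioi 1) :=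
    integrableOn_Ioi_cpow_of_lt (by simp; linarith) one_pos
  have h2 : IntegrableOn (fun t : ℝ => (t : ℂ) ^ (-(s + 1))) (Ioi 1) :=
    integrableOn_Ioi_cpow_of_lt (by simp; linarith) one_pos
  have h2' := h2.indicator (t := Iic X) measurableSet_Iic
  have h3 := integrableOn_errInt hb hsb
  have hfun : ∀ t ∈ Ioi (1 : ℝ), (sideFn a m C B X α e t : ℂ) * (t : ℂ) ^ (-(s + 1)) =
      (C : ℂ) * (t : ℂ) ^ ((α : ℂ) - (s + 1)) +
        (B : ℂ) * (Iic X).indicator (fun u : ℝ => (u : ℂ) ^ (-(s + 1))) t -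
        (e : ℂ) * (psiErr a m t * (t : ℂ) ^ (-(s + 1))) := fun t ht => by
    have ht0 : 0 < t := zero_lt_one.trans ht
    have hd : psiErr a m t = ((psiErr a m t).re : ℂ) :=
      Complex.ext (by simp) (by simp [hreal t])
    rw [sideFn, sub_eq_add_neg (α : ℂ), cpow_add _ _ (ofReal_ne_zero.2 ht0.ne'),
      ← ofReal_cpow ht0.le]
    conv_rhs => rw [hd]
    by_cases hm : t ∈ Iic X
    · rw [indicator_of_mem hm, indicator_of_mem hm]
      push_cast
      ring
    · rw [indicator_of_notMem hm, indicator_of_notMem hm]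
      push_cast
      ring
  have hint := ((h1.const_mul (C : ℂ)).add (h2'.const_mul (B : ℂ))).sub (h3.const_mul (e : ℂ))
  refine ⟨?_, ?_⟩
  · have hI : IntegrableOn
        (fun t : ℝ => (sideFn a m C B X α e t : ℂ) * (t : ℂ) ^ (-(s + 1))) (Ioi 1) :=
      IntegrableOn.congr_fun hint (fun t ht => (hfun t ht).symm) measurableSet_Ioi
    show Integrable _ _
    rw [sideMeasure, integrable_withDensity_iff_integrable_smul'
      (measurable_density a m C B X α e)
      (Eventually.of_forall fun _ => ENNReal.ofReal_lt_top)]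
    refine hI.norm.congr ?_
    filter_upwards [ae_restrict_mem measurableSet_Ioi] with t ht
    have ht0 : 0 < t := zero_lt_one.trans ht
    rw [ENNReal.toReal_ofReal (mul_nonneg (hg t ht) (inv_nonneg.2 ht0.le)), norm_mul,
      Complex.norm_real, Real.norm_of_nonneg (hg t ht), norm_cpow_eq_rpow_re_of_pos ht0,
      show (-(s + 1)).re = -1 + -s.re by simp, Real.rpow_add ht0, Real.rpow_neg_one,
      Real.rpow_def_of_pos ht0, smul_eq_mul]
    ring_nf
  · rw [sideInt_eq hg, setIntegral_congr_fun measurableSet_Ioi hfun]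
    refine (integral_sub ((h1.const_mul (C : ℂ)).add (h2'.const_mul (B : ℂ)))
      (h3.const_mul (e : ℂ))).trans ?_
    rw [integral_add' (h1.const_mul (C : ℂ)) (h2'.const_mul (B : ℂ)), integral_const_mul,
      integral_const_mul, integral_const_mul, setIntegral_indicator measurableSet_Iic,
      Ioi_inter_Iic, ← intervalIntegral.integral_of_le hX,
      integral_cpow (Or.inr ⟨fun h => hs0 ?_, notMem_uIcc_of_lt one_pos (by linarith)⟩),
      integral_Ioi_cpow_of_lt (by simp; linarith) one_pos, errInt]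
    · have hsa : s - α ≠ 0 := sub_ne_zero.2 fun h => by rw [h, ofReal_re] at hsα; linarith
      simp only [ofReal_one, one_cpow, show -(s + 1) + 1 = -s by ring,
        show (α : ℂ) - (s + 1) + 1 = -(s - α) by ring]
      field_simp
      ring
    · linear_combination -h

/-- **Landau: the continuation converges.** -/
theorem sideInt_continuation (h : HasFunctionalEquation a m E lam mu Q omega)
    (he : HasEulerProduct a) (hreal : ∀ t, (psiErr a m t).im = 0) (hα : 0 ≤ α) (he1 : e * e = 1)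
    (hX : 1 ≤ X) (hg : ∀ t, 1 < t → 0 ≤ sideFn a m C B X α e t)
    (hne : ∀ σ : ℝ, α < σ → E (σ : ℂ) ≠ 0) :
    (∀ u : ℝ, α < u → (-u) ∈ integrableExpSet Real.log (sideMeasure a m C B X α e)) ∧
    ∀ s : ℂ, α < s.re → E s ≠ 0 ∧ sideInt a m C B X α e s =
      (C : ℂ) / (s - α) + (B : ℂ) * ((1 - (X : ℂ) ^ (-s)) / s) +
        (e : ℂ) * ((deriv E s / E s + m) / s) := by
  obtain ⟨σ₀, hσ₀, hO, hid⟩ := exists_errInt_eq h he
  obtain ⟨σ₁, hσ₁⟩ : ∃ σ₁, σ₁ = max σ₀ α := ⟨_, rfl⟩
  have h01 : σ₀ ≤ σ₁ := hσ₁ ▸ le_max_left _ _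
  have hα1 : α ≤ σ₁ := hσ₁ ▸ le_max_right _ _
  obtain ⟨R, hR⟩ : ∃ R : ℂ → ℂ, R = fun s =>
      (C : ℂ) / (s - α) + (B : ℂ) * ((1 - (X : ℂ) ^ (-s)) / s) +
        (e : ℂ) * ((deriv E s / E s + m) / s) := ⟨_, rfl⟩
  have hRright : ∀ s : ℂ, σ₁ < s.re → sideInt a m C B X α e s = R s := fun s hs => by
    rw [(sideInt_right hα hreal hX hg hO (by linarith) (by linarith)).2, hR]
    have hE := E_ne_zero h he (show 1 < s.re by linarith)
    have hs0 : s ≠ 0 := fun h0 => by rw [h0, zero_re] at hs; linarith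
    simp only
    rw [div_add' _ _ _ hE, hid s (by linarith), neg_div, mul_div_cancel_right₀ _ hE, neg_div,
      mul_div_cancel_left₀ _ hs0]
    ring
  have hRan : ∀ σ : ℝ, α < σ → AnalyticAt ℂ R (σ : ℂ) := fun σ hσ => by
    rw [hR]
    have hE := analyticOnNhd_univ_iff_differentiable.2 h.differentiable
    have hσ0 : (σ : ℂ) ≠ 0 := ofReal_ne_zero.2 (by linarith)
    have hX0 : (X : ℂ) ≠ 0 := ofReal_ne_zero.2 (by linarith)
    have hpow : AnalyticAt ℂ (fun z : ℂ => (X : ℂ) ^ (-z)) (σ : ℂ) :=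
      (differentiable_id.neg.const_cpow (Or.inl hX0)).analyticAt _
    refine ((analyticAt_const.div (analyticAt_id.sub analyticAt_const)
      (sub_ne_zero.2 fun h0 => hσ.ne' (ofReal_inj.1 h0))).add
        (analyticAt_const.mul ((analyticAt_const.sub hpow).div analyticAt_id hσ0))).add
          (analyticAt_const.mul (((((hE.deriv _ trivial)).div (hE _ trivial) (hne σ hσ)).add
            analyticAt_const).div analyticAt_id hσ0))
  have hmem : ∀ t : ℝ, t < -σ₁ → t ∈ integrableExpSet Real.log (sideMeasure a m C B X α e) :=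
    fun t ht => by
      have := (sideInt_right (s := ((-t : ℝ) : ℂ)) hα hreal hX hg hO (by simp; linarith)
        (by simp; linarith)).1
      simpa using this
  have hint := landau_integrable Real.measurable_log ae_log_nonneg (F := fun z => R (-z))
    (b := -α) hmem (fun t ht => by
      refine AnalyticAt.fun_comp (g := R) ?_ analyticAt_id.neg
      simpa using hRan (-t) (by linarith))
    (fun t ht => by
      have := hRright (-(t : ℂ)) (by simp; linarith)
      rw [sideInt, neg_neg] at this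
      exact this.symm)
  refine ⟨fun u hu => hint (-u) (by linarith), ?_⟩
  have hsub : ∀ s : ℂ, α < s.re →
      (-s).re ∈ interior (integrableExpSet Real.log (sideMeasure a m C B X α e)) := fun s hs =>
    interior_maximal (fun t (ht : t ∈ Iio (-α)) => hint t ht) isOpen_Iio (by simpa using hs)
  have hU : IsOpen {s : ℂ | α < s.re} := isOpen_lt continuous_const continuous_re
  obtain ⟨G, hG⟩ : ∃ G : ℂ → ℂ, G = fun s => (e : ℂ) * ((C : ℂ) / (s - α) +
      (B : ℂ) * ((1 - (X : ℂ) ^ (-s)) / s) - sideInt a m C B X α e s) := ⟨_, rfl⟩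
  have hGd : DifferentiableOn ℂ G {s | α < s.re} := fun s hs => by
    rw [hG]
    have hs' : α < s.re := hs
    have hs0 : s ≠ 0 := fun h0 => by rw [h0, zero_re] at hs'; linarith
    have hsa : s - α ≠ 0 := sub_ne_zero.2 fun h0 => by rw [h0, ofReal_re] at hs'; linarith
    have hX0 : (X : ℂ) ≠ 0 := ofReal_ne_zero.2 (by linarith)
    have d1 : DifferentiableAt ℂ (fun z : ℂ => (C : ℂ) / (z - α)) s :=
      (differentiableAt_const _).div (differentiableAt_id.sub_const (α : ℂ)) hsa
    have d2 : DifferentiableAt ℂ (fun z : ℂ => (B : ℂ) * ((1 - (X : ℂ) ^ (-z)) / z)) s :=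
      (((differentiableAt_const _).sub (differentiableAt_id.neg.const_cpow (Or.inl hX0))).div
        differentiableAt_id hs0).const_mul _
    have d3 : DifferentiableAt ℂ (fun z : ℂ => sideInt a m C B X α e z) s :=
      (analyticAt_complexMGF (hsub s hs')).differentiableAt.comp s differentiableAt_id.neg
    exact (((d1.add d2).sub d3).const_mul _).differentiableWithinAt
  have hee : (e : ℂ) * e = 1 := by exact_mod_cast he1
  obtain ⟨key, hnz⟩ := ne_zero_of_continuation h he (σ₁ := σ₁) hGd fun s hs => by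
    rw [hG]
    simp only
    rw [(sideInt_right hα hreal hX hg hO (by linarith) (by linarith)).2]
    linear_combination (errInt a m s) * hee
  refine fun s hs => ⟨hnz s hs, ?_⟩
  have hs0 : s ≠ 0 := fun h0 => by rw [h0, zero_re] at hs; linarith
  rw [div_add' _ _ _ (hnz s hs), key s hs, neg_div, mul_div_cancel_right₀ _ (hnz s hs), neg_div,
    mul_div_cancel_left₀ _ hs0, hG]
  linear_combination ((C : ℂ) / (s - α) + (B : ℂ) * ((1 - (X : ℂ) ^ (-s)) / s) -
    sideInt a m C B X α e s) * hee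

theorem exists_sideFn_nonneg {X₀ : ℝ} (hα : 0 ≤ α)
    (hbd : ∀ t, X₀ ≤ t → e * (psiErr a m t).re ≤ C * t ^ α) :
    ∃ B X : ℝ, 1 ≤ X ∧ ∀ t, 1 < t → 0 ≤ sideFn a m C B X α e t := by
  obtain ⟨B₀, hB₀, hle⟩ := exists_norm_psiErr_le a m (max X₀ 1)
  refine ⟨|C| * max X₀ 1 ^ α + |e| * B₀, max X₀ 1, le_max_right _ _, fun t ht => ?_⟩
  rw [sideFn]
  rcases le_or_gt t (max X₀ 1) with h1 | h1
  · rw [indicator_of_mem (mem_Iic.2 h1)]
    have h2 : e * (psiErr a m t).re ≤ |e| * B₀ := (le_abs_self _).trans (by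
      rw [abs_mul]
      exact mul_le_mul_of_nonneg_left
        ((abs_re_le_norm _).trans (hle t (by linarith) h1)) (abs_nonneg e))
    have h3 : -(|C| * max X₀ 1 ^ α) ≤ C * t ^ α := by
      have h4 : t ^ α ≤ max X₀ 1 ^ α := Real.rpow_le_rpow (by linarith) h1 hα
      nlinarith [neg_abs_le C, abs_nonneg C, Real.rpow_nonneg (show 0 ≤ t by linarith) α]
    linarith
  · rw [indicator_of_notMem (notMem_Iic.2 h1), add_zero]
    linarith [hbd t ((le_max_left _ _).trans h1.le)]

/-- **One-sided bounds leave no zero.** -/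
theorem ne_zero_of_one_sided (h : HasFunctionalEquation a m E lam mu Q omega)
    (he : HasEulerProduct a) (hreal : ∀ t, (psiErr a m t).im = 0) (hα : 0 ≤ α) (he1 : e * e = 1)
    {X₀ : ℝ} (hbd : ∀ t, X₀ ≤ t → e * (psiErr a m t).re ≤ C * t ^ α)
    (hne : ∀ σ : ℝ, α < σ → E (σ : ℂ) ≠ 0) {s : ℂ} (hs : α < s.re) : E s ≠ 0 := by
  obtain ⟨B, X, hX, hg⟩ := exists_sideFn_nonneg hα hbd
  exact ((sideInt_continuation h he hreal hα he1 hX hg hne).2 s hs).1

/-- **`k ≤ C |ρ|` from one side.** -/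
theorem order_le_of_one_sided (h : HasFunctionalEquation a m E lam mu Q omega)
    (he : HasEulerProduct a) (hreal : ∀ t, (psiErr a m t).im = 0) (hρ : 0 < ρ.re) (h0 : E ρ = 0)
    (he1 : e * e = 1) {X₀ : ℝ} (hbd : ∀ t, X₀ ≤ t → e * (psiErr a m t).re ≤ C * t ^ ρ.re)
    (hne : ∀ σ : ℝ, ρ.re ≤ σ → E (σ : ℂ) ≠ 0) :
    (analyticOrderNatAt E ρ : ℝ) ≤ C * ‖ρ‖ := by
  obtain ⟨B, X, hX, hg⟩ := exists_sideFn_nonneg hρ.le hbd
  obtain ⟨hint, hval⟩ := sideInt_continuation h he hreal hρ.le he1 hX hg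
    fun σ hσ => hne σ hσ.le
  have him : ρ.im ≠ 0 := fun e0 => hne ρ.re le_rfl (by
    rwa [show (ρ.re : ℂ) = ρ from Complex.ext (by simp) (by simp [e0])])
  have hρ0 : ρ ≠ 0 := fun e0 => him (by simp [e0])
  have hX0 : (X : ℂ) ≠ 0 := ofReal_ne_zero.2 (by linarith)
  obtain ⟨q, hq⟩ : ∃ q : ℂ → ℂ, q = fun s => (B : ℂ) * ((1 - (X : ℂ) ^ (-s)) / s) := ⟨_, rfl⟩
  have hcast : Tendsto (fun ε : ℝ => (ε : ℂ)) (𝓝[>] 0) (𝓝 0) := by
    simpa using (Complex.continuous_ofReal.tendsto 0).mono_left nhdsWithin_le_nhds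
  have hqc : ∀ z : ℂ, z ≠ 0 → Tendsto (fun ε : ℝ => (ε : ℂ) * q (z + ε)) (𝓝[>] 0) (𝓝 0) :=
    fun z hz => by
      have hc : ContinuousAt q z := by
        rw [hq]
        exact continuousAt_const.mul ((continuousAt_const.sub
          (continuousAt_id.neg.const_cpow (Or.inl hX0))).div continuousAt_id hz)
      simpa using hcast.mul (hc.tendsto.comp (by simpa using hcast.const_add z))
  have h1 : Tendsto (fun ε : ℝ => (ε : ℂ) * sideInt a m C B X ρ.re e (ρ + ε)) (𝓝[>] 0)
      (𝓝 ((e : ℂ) * (analyticOrderNatAt E ρ : ℂ) / ρ)) := by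
    have ha : Tendsto (fun ε : ℝ => (ε : ℂ) * ((C : ℂ) / (ρ + ε - ρ.re))) (𝓝[>] 0) (𝓝 0) := by
      have hc : ContinuousAt (fun z : ℂ => (C : ℂ) / (z - ρ.re)) ρ :=
        continuousAt_const.div (continuousAt_id.sub continuousAt_const)
          (sub_ne_zero.2 fun e0 => him (by rw [e0]; simp))
      simpa using hcast.mul (hc.tendsto.comp (by simpa using hcast.const_add ρ))
    have hb := ((tendsto_mul_logDeriv_right h he ρ).const_mul (e : ℂ)).div
      (by simpa using hcast.const_add ρ) hρ0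
    have hsum := (ha.add (hqc ρ hρ0)).add hb
    rw [zero_add, zero_add] at hsum
    refine hsum.congr' ?_
    filter_upwards [self_mem_nhdsWithin] with ε hε
    have hε0 : (0 : ℝ) < ε := hε
    rw [(hval _ (by simp [hε0])).2, hq]
    simp only [Pi.div_apply]
    ring
  have h2 : Tendsto (fun ε : ℝ => (ε : ℂ) * sideInt a m C B X ρ.re e ((ρ.re : ℂ) + ε))
      (𝓝[>] 0) (𝓝 (C : ℂ)) := by
    have hE := analyticOnNhd_univ_iff_differentiable.2 h.differentiable
    have hb : Tendsto (fun ε : ℝ => (ε : ℂ) * ((e : ℂ) *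
        ((deriv E ((ρ.re : ℂ) + ε) / E ((ρ.re : ℂ) + ε) + m) / ((ρ.re : ℂ) + ε))))
        (𝓝[>] 0) (𝓝 0) := by
      have hc : ContinuousAt (fun z : ℂ => (e : ℂ) * ((deriv E z / E z + m) / z)) (ρ.re : ℂ) :=
        continuousAt_const.mul (((((hE.deriv _ trivial).continuousAt).div
          (hE _ trivial).continuousAt (hne _ le_rfl)).add continuousAt_const).div
            continuousAt_id (ofReal_ne_zero.2 hρ.ne'))
      simpa using hcast.mul (hc.tendsto.comp (by simpa using hcast.const_add (ρ.re : ℂ)))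
    have hsum := ((tendsto_const_nhds (x := (C : ℂ))).add
      (hqc (ρ.re : ℂ) (ofReal_ne_zero.2 hρ.ne'))).add hb
    rw [add_zero, add_zero] at hsum
    refine hsum.congr' ?_
    filter_upwards [self_mem_nhdsWithin] with ε hε
    have hε0 : (0 : ℝ) < ε := hε
    rw [(hval _ (by simp [hε0])).2, hq, add_sub_cancel_left, mul_add, mul_add,
      mul_div_cancel₀ _ (ofReal_ne_zero.2 hε0.ne')]
  have h1' := h1.norm
  have h2' := (Complex.continuous_re.tendsto _).comp h2
  rw [norm_div, norm_mul, Complex.norm_natCast, Complex.norm_real] at h1'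
  have hae : ‖e‖ = 1 := by
    rw [Real.norm_eq_abs]
    nlinarith [abs_mul_abs_self e, abs_nonneg e]
  rw [hae, one_mul] at h1'
  rw [ofReal_re] at h2'
  rw [← div_le_iff₀ (norm_pos_iff.2 hρ0)]
  refine le_of_tendsto_of_tendsto h1' h2' ?_
  filter_upwards [self_mem_nhdsWithin] with ε hε
  have hε0 : (0 : ℝ) < ε := hε
  rw [Function.comp_apply, norm_mul, Complex.norm_real, Real.norm_of_nonneg hε0.le, re_ofReal_mul]
  refine mul_le_mul_of_nonneg_left ?_ hε0.le
  rw [sideInt, sideInt, ← ofReal_add, ← ofReal_neg, re_complexMGF_ofReal]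
  refine norm_complexMGF_le_mgf.trans (le_of_eq ?_)
  simp

end FA.SelbergOmega

end
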