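import Fermat.Agent.SelbergHadamard.Zeros
import Fermat.Agent.SelbergLandau.Coefficients

/-!
# The transform of `∑_{n ≤ x} Λ_F n - m x`

For `re s` large `-s ∫_1^∞ Δ x x^(-s-1) dx = E'/E + m`; an analytic continuation of the integral to
a half plane leaves no zero of `E` there.
-/

set_option autoImplicit false

noncomputable section

open Complex MeasureTheory Filter Topology Set Asymptotics
open FA.DegreeGap (HasFunctionalEquation)
open FA.SelbergClass (HasEulerProduct)
open FA.SelbergLandau (lamF)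

namespace FA.SelbergOmega

variable {a : ℕ → ℂ} {m : ℕ} {E : ℂ → ℂ} {r : ℕ} {lam : Fin r → ℝ} {mu : Fin r → ℂ} {Q : ℝ}
  {omega : ℂ} {G : ℂ → ℂ} {α : ℝ}

/-- `∑_{n ≤ t} Λ_F n - m t`. -/
def psiErr (a : ℕ → ℂ) (m : ℕ) (t : ℝ) : ℂ :=
  (∑ n ∈ Finset.Ioc 0 ⌊t⌋₊, lamF a n) - (m : ℂ) * t

/-- `∫_1^∞ Δ t t^(-s-1) dt`. -/
def errInt (a : ℕ → ℂ) (m : ℕ) (s : ℂ) : ℂ :=
  ∫ t in Ioi (1 : ℝ), psiErr a m t * (t : ℂ) ^ (-(s + 1))

/-- `Δ` from `1` on. -/
def errFrom (a : ℕ → ℂ) (m : ℕ) : ℝ → ℂ := (Ioi (1 : ℝ)).indicator (psiErr a m)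

theorem measurable_psiErr (a : ℕ → ℂ) (m : ℕ) : Measurable (psiErr a m) :=
  ((measurable_from_nat (f := fun k => ∑ n ∈ Finset.Ioc 0 k, lamF a n)).comp
    Nat.measurable_floor).sub (measurable_const.mul Complex.measurable_ofReal)

theorem exists_norm_psiErr_le (a : ℕ → ℂ) (m : ℕ) (X : ℝ) :
    ∃ B : ℝ, 0 ≤ B ∧ ∀ t : ℝ, 0 ≤ t → t ≤ X → ‖psiErr a m t‖ ≤ B := by
  refine ⟨(∑ n ∈ Finset.Ioc 0 ⌊X⌋₊, ‖lamF a n‖) + m * |X|,
    add_nonneg (Finset.sum_nonneg fun n _ => norm_nonneg _) (by positivity),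
    fun t h0 hX => (norm_sub_le _ _).trans (add_le_add ?_ ?_)⟩
  · exact (norm_sum_le _ _).trans (Finset.sum_le_sum_of_subset_of_nonneg
      (Finset.Ioc_subset_Ioc_right (Nat.floor_mono hX)) fun n _ _ => norm_nonneg _)
  · rw [norm_mul, Complex.norm_natCast, Complex.norm_real, Real.norm_of_nonneg h0]
    exact mul_le_mul_of_nonneg_left (hX.trans (le_abs_self X)) (Nat.cast_nonneg m)

theorem locallyIntegrableOn_errFrom (a : ℕ → ℂ) (m : ℕ) :
    LocallyIntegrableOn (errFrom a m) (Ioi 0) := by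
  rw [locallyIntegrableOn_iff isLocallyClosed_Ioi]
  intro k hk hkc
  obtain ⟨X, hX⟩ := hkc.bddAbove
  obtain ⟨B, hB, hle⟩ := exists_norm_psiErr_le a m X
  have : IsFiniteMeasure (volume.restrict k) := ⟨by simpa using hkc.measure_lt_top⟩
  refine Integrable.of_bound ((measurable_psiErr a m).indicator
    measurableSet_Ioi).aestronglyMeasurable B ?_
  filter_upwards [ae_restrict_mem hkc.measurableSet] with t ht
  by_cases h1 : t ∈ Ioi (1 : ℝ)
  · rw [errFrom, indicator_of_mem h1]
    exact hle t (le_of_lt (hk ht)) (hX ht)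
  · rw [errFrom, indicator_of_notMem h1, norm_zero]
    exact hB

theorem integrableOn_errInt {b : ℝ} (hb : psiErr a m =O[atTop] fun t => t ^ b) {s : ℂ}
    (hs : b < s.re) :
    IntegrableOn (fun t : ℝ => psiErr a m t * (t : ℂ) ^ (-(s + 1))) (Ioi 1) := by
  have h : MellinConvergent (errFrom a m) (-s) :=
    mellinConvergent_of_isBigO_rpow (a := -b) (b := -s.re - 1) (locallyIntegrableOn_errFrom a m)
      (by
        simp only [neg_neg]
        exact hb.congr' (by
          filter_upwards [eventually_gt_atTop 1] with t ht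
          rw [errFrom, indicator_of_mem (mem_Ioi.2 ht)]) EventuallyEq.rfl)
      (by simpa using hs) (by
        refine (isBigO_zero _ _).congr' ?_ EventuallyEq.rfl
        filter_upwards [nhdsWithin_le_nhds (eventually_lt_nhds (show (0 : ℝ) < 1 by norm_num))]
          with t ht
        rw [errFrom, indicator_of_notMem (by simpa using ht.le)]) (by simp)
  refine (h.mono_set (Ioi_subset_Ioi zero_le_one)).congr_fun (fun t ht => ?_) measurableSet_Ioi
  simp only [errFrom, indicator_of_mem ht, smul_eq_mul, mul_comm, neg_add']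

theorem errInt_eq_mellin (s : ℂ) : errInt a m s = mellin (errFrom a m) (-s) := by
  have e : ∀ t : ℝ, (t : ℂ) ^ (-s - 1) • errFrom a m t =
      (Ioi (1 : ℝ)).indicator (fun u : ℝ => psiErr a m u * (u : ℂ) ^ (-(s + 1))) t := fun t => by
    by_cases ht : t ∈ Ioi (1 : ℝ)
    · rw [errFrom, indicator_of_mem ht, indicator_of_mem ht, smul_eq_mul, mul_comm, neg_add']
    · rw [errFrom, indicator_of_notMem ht, indicator_of_notMem ht, smul_zero]
  simp only [mellin, e, errInt]
  rw [setIntegral_indicator measurableSet_Ioi,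
    inter_eq_self_of_subset_right (Ioi_subset_Ioi zero_le_one)]

theorem differentiableAt_errInt {b : ℝ} (hb : psiErr a m =O[atTop] fun t => t ^ b) {s : ℂ}
    (hs : b < s.re) : DifferentiableAt ℂ (errInt a m) s := by
  rw [show errInt a m = fun z => mellin (errFrom a m) (-z) from funext errInt_eq_mellin]
  refine DifferentiableAt.comp (g := mellin (errFrom a m)) s ?_ differentiableAt_id.neg
  refine mellin_differentiableAt_of_isBigO_rpow (a := -b) (b := -s.re - 1)
    (locallyIntegrableOn_errFrom a m) ?_ (by simpa using hs) ?_ (by simp)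
  · simp only [neg_neg]
    exact hb.congr' (by
      filter_upwards [eventually_gt_atTop 1] with t ht
      rw [errFrom, indicator_of_mem (mem_Ioi.2 ht)]) EventuallyEq.rfl
  · refine (isBigO_zero _ _).congr' ?_ EventuallyEq.rfl
    filter_upwards [nhdsWithin_le_nhds (eventually_lt_nhds (show (0 : ℝ) < 1 by norm_num))]
      with t ht
    rw [errFrom, indicator_of_notMem (by simpa using ht.le)]

theorem E_ne_zero (h : HasFunctionalEquation a m E lam mu Q omega) (he : HasEulerProduct a) {s : ℂ}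
    (hs : 1 < s.re) : E s ≠ 0 := by
  rw [h.eq_series s hs]
  refine mul_ne_zero (pow_ne_zero m (sub_ne_zero.2 fun e => ?_))
    (FA.SelbergZeroCount.lSeries_ne_zero he hs (h.summable s hs))
  rw [e, one_re] at hs
  exact lt_irrefl _ hs

theorem order_E_ne_top (h : HasFunctionalEquation a m E lam mu Q omega) (he : HasEulerProduct a)
    (z : ℂ) : analyticOrderAt E z ≠ ⊤ :=
  FA.SelbergZeroCount.order_ne_top h.differentiable
    (E_ne_zero h he (s := 2) (by norm_num)) z

/-- **The identity far to the right.** -/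
theorem exists_errInt_eq (h : HasFunctionalEquation a m E lam mu Q omega)
    (he : HasEulerProduct a) :
    ∃ σ₀ : ℝ, 2 ≤ σ₀ ∧ psiErr a m =O[atTop] (fun t => t ^ σ₀) ∧
      ∀ s : ℂ, σ₀ < s.re → deriv E s + (m : ℂ) * E s = -(s * errInt a m s * E s) := by
  obtain ⟨σ₀, hσ₀, hser⟩ := FA.SelbergLandau.exists_lSeries_lamF h he
  obtain ⟨hS, -, -⟩ := hser (σ₀ : ℂ) le_rfl
  obtain ⟨S, hSd⟩ : ∃ S, S = ∑' n, ‖LSeries.term (lamF a) (σ₀ : ℂ) n‖ := ⟨_, rfl⟩
  have hsum : ∀ k : ℕ, ∑ n ∈ Finset.Icc 1 k, ‖lamF a n‖ ≤ S * (k : ℝ) ^ σ₀ := fun k => by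
    rw [hSd]
    refine le_trans ?_ (mul_le_mul_of_nonneg_right
      (hS.norm.sum_le_tsum (Finset.Icc 1 k) fun n _ => norm_nonneg _) (by positivity))
    rw [Finset.sum_mul]
    refine Finset.sum_le_sum fun n hn => ?_
    rw [Finset.mem_Icc] at hn
    have hn0 : (0 : ℝ) < n := Nat.cast_pos.2 hn.1
    rw [LSeries.norm_term_eq, if_neg (by omega), ofReal_re, div_mul_eq_mul_div,
      le_div_iff₀ (Real.rpow_pos_of_pos hn0 _)]
    exact mul_le_mul_of_nonneg_left
      (Real.rpow_le_rpow hn0.le (Nat.cast_le.2 hn.2) (by linarith)) (norm_nonneg _)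
  have hIoc : ∀ k : ℕ, Finset.Ioc 0 k = Finset.Icc 1 k := fun k =>
    Finset.ext fun n => by simp [Nat.one_le_iff_ne_zero, Nat.pos_iff_ne_zero]
  have hO : psiErr a m =O[atTop] fun t => t ^ σ₀ := by
    refine IsBigO.of_bound (S + m) ?_
    filter_upwards [eventually_ge_atTop 1] with t ht
    rw [Real.norm_of_nonneg (by positivity), add_mul]
    refine (norm_sub_le _ _).trans (add_le_add ?_ ?_)
    · rw [hIoc]
      refine ((norm_sum_le _ _).trans (hsum _)).trans (mul_le_mul_of_nonneg_left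
        (Real.rpow_le_rpow (Nat.cast_nonneg _) (Nat.floor_le (by linarith)) (by linarith)) ?_)
      rw [hSd]
      exact tsum_nonneg fun n => norm_nonneg _
    · rw [norm_mul, Complex.norm_natCast, Complex.norm_real, Real.norm_of_nonneg (by linarith)]
      refine mul_le_mul_of_nonneg_left ?_ (Nat.cast_nonneg m)
      conv_lhs => rw [← Real.rpow_one t]
      exact Real.rpow_le_rpow_of_exponent_le ht (by linarith)
  refine ⟨σ₀, hσ₀, hO, fun s hs => ?_⟩
  have hs1 : 1 < s.re := by linarith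
  obtain ⟨hSs, hne, hder⟩ := hser s hs.le
  have hI : LSeries (lamF a) s =
      s * ∫ t in Ioi (1 : ℝ), (∑ k ∈ Finset.Icc 1 ⌊t⌋₊, lamF a k) * (t : ℂ) ^ (-(s + 1)) := by
    refine LSeries_eq_mul_integral _ (r := σ₀) (by linarith) hs hSs
      (IsBigO.of_bound S (Eventually.of_forall fun k => ?_))
    rw [Real.norm_of_nonneg (by positivity)]
    exact (norm_sum_le _ _).trans (hsum k)
  have hmain := integrableOn_errInt hO hs
  have hpow : IntegrableOn (fun t : ℝ => (m : ℂ) * (t : ℂ) ^ (-s)) (Ioi 1) :=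
    (integrableOn_Ioi_cpow_of_lt (by simp; linarith) one_pos).const_mul _
  have hsplit : ∫ t in Ioi (1 : ℝ), (∑ k ∈ Finset.Icc 1 ⌊t⌋₊, lamF a k) * (t : ℂ) ^ (-(s + 1)) =
      errInt a m s + (m : ℂ) * (1 / (s - 1)) := by
    have e1 : (1 : ℂ) / (s - 1) = ∫ t in Ioi (1 : ℝ), (t : ℂ) ^ (-s) := by
      rw [integral_Ioi_cpow_of_lt (by simp; linarith) one_pos]
      simp only [ofReal_one, one_cpow]
      rw [show -s + 1 = -(s - 1) by ring, div_neg, neg_div, neg_neg]
    rw [e1, ← integral_const_mul, errInt, ← integral_add hmain hpow]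
    refine setIntegral_congr_fun measurableSet_Ioi fun t ht => ?_
    have ht0 : (t : ℂ) ≠ 0 := ofReal_ne_zero.2 (zero_lt_one.trans ht).ne'
    rw [psiErr, hIoc, show -s = 1 + -(s + 1) by ring, cpow_add _ _ ht0, cpow_one]
    ring
  have hld : deriv E s / E s = m * (s - 1)⁻¹ + deriv (LSeries a) s / LSeries a s :=
    FA.SelbergZeroCount.logDeriv_pow_mul (FA.SelbergZeroCount.differentiableAt_lSeries h hs1) hne
      (fun e => by rw [e, one_re] at hs1; exact lt_irrefl _ hs1) (by
        filter_upwards [(isOpen_lt continuous_const continuous_re).mem_nhds hs1] with z hz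
        exact h.eq_series z hz)
  have hE := E_ne_zero h he hs1
  rw [hder, hI, hsplit, div_eq_iff hE] at hld
  rw [hld]
  have hs0 : s - 1 ≠ 0 := sub_ne_zero.2 fun e => by rw [e, one_re] at hs1; exact lt_irrefl _ hs1
  field_simp
  ring

/-- **A continuation of the integral leaves no zero.** -/
theorem ne_zero_of_continuation (h : HasFunctionalEquation a m E lam mu Q omega)
    (he : HasEulerProduct a) {σ₁ : ℝ} (hG : DifferentiableOn ℂ G {s | α < s.re})
    (heq : ∀ s : ℂ, σ₁ < s.re → G s = errInt a m s) :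
    (∀ s : ℂ, α < s.re → deriv E s + (m : ℂ) * E s = -(s * G s * E s)) ∧
      ∀ s : ℂ, α < s.re → E s ≠ 0 := by
  obtain ⟨σ₀, -, -, hid⟩ := exists_errInt_eq h he
  have hU : IsOpen {s : ℂ | α < s.re} := isOpen_lt continuous_const continuous_re
  have hE : AnalyticOnNhd ℂ E Set.univ :=
    analyticOnNhd_univ_iff_differentiable.2 h.differentiable
  have h1 : AnalyticOnNhd ℂ (fun s => deriv E s + (m : ℂ) * E s) {s : ℂ | α < s.re} := fun s _ =>
    (hE.deriv s trivial).add (analyticAt_const.mul (hE s trivial))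
  have h2 : AnalyticOnNhd ℂ (fun s => -(s * G s * E s)) {s : ℂ | α < s.re} := fun s hs =>
    ((analyticAt_id.mul (hG.analyticAt (hU.mem_nhds hs))).mul (hE s trivial)).neg
  obtain ⟨σ, hσ, hσ'⟩ : ∃ σ : ℝ, max σ₀ σ₁ < σ ∧ α < σ :=
    ⟨max (max σ₀ σ₁) α + 1, by linarith [le_max_left (max σ₀ σ₁) α],
      by linarith [le_max_right (max σ₀ σ₁) α]⟩
  have hev : (fun s => deriv E s + (m : ℂ) * E s) =ᶠ[𝓝 (σ : ℂ)] fun s => -(s * G s * E s) := by
    filter_upwards [(isOpen_lt continuous_const continuous_re).mem_nhds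
      (show max σ₀ σ₁ < (σ : ℂ).re by simpa using hσ)] with s hs
    rw [hid s ((le_max_left _ _).trans_lt hs), heq s ((le_max_right _ _).trans_lt hs)]
  have key := h1.eqOn_of_preconnected_of_eventuallyEq h2
    (convex_halfSpace_re_gt α).isPreconnected (show α < (σ : ℂ).re by simpa using hσ') hev
  refine ⟨key, fun s hs h0 => ?_⟩
  have hEs := hE s trivial
  have hord := order_E_ne_top h he s
  have hd := hEs.analyticOrderAt_deriv_add_one
  have hd0 : (fun z => deriv E z) =ᶠ[𝓝 s] fun z => (-(z * G z) - (m : ℂ)) * E z := by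
    filter_upwards [hU.mem_nhds hs] with z hz
    have := key hz
    simp only at this
    linear_combination this
  rw [show (fun x => E x - E s) = E from funext fun x => by rw [h0, sub_zero],
    show deriv E = fun z => deriv E z from rfl, analyticOrderAt_congr hd0] at hd
  have hc : AnalyticAt ℂ (fun z => -(z * G z) - (m : ℂ)) s :=
    (analyticAt_id.mul (hG.analyticAt (hU.mem_nhds hs))).neg.sub analyticAt_const
  have hm := analyticOrderAt_mul hc hEs
  simp only [Pi.mul_def] at hm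
  rw [hm, ← Nat.cast_analyticOrderNatAt hord] at hd
  revert hd
  generalize analyticOrderAt (fun z => -(z * G z) - (m : ℂ)) s = c
  intro hd
  induction c using ENat.recTopCoe with
  | top => simp at hd
  | coe c => norm_cast at hd; omega

end FA.SelbergOmega

end
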